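import Fermat.Agent.S29.H872.Cyclo

/-!
# S48 / RES, layer A with determinant character (helper8) — part 1:
the mod `N` cyclotomic character of `G_ℚ` for an arbitrary modulus `N`

* `cycN N : G_ℚ →* (ZMod N)ˣ`, the action on the `N`-th roots of unity of `ℚ̄`;
* `cycN_frobenius` : a Frobenius element at a place over `ℓ ∤ N` is sent to `ℓ`;
* `cycN_eq_one_of_mem_inertia` : inertia at a place over `ℓ ∤ N` is sent to `1`;
* `cycN_eq_one_of_fixes_roots` : `σ` fixing all `N`-th roots of unity is sent to `1`.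

Same proofs as for prime modulus (`S55.Bridge.Cyclo`, `S29.H872.Cyclo`), whose valuation lemmas are
already stated for an arbitrary exponent.
-/

set_option autoImplicit false

namespace Fermat.Agent.S48.H8

open Fermat.Agent.S55.Bridge Fermat.Agent.S29.H872

section val

variable {A : ValuationSubring (AlgebraicClosure ℚ)}

/-- An integer `N` prime to `q` is a unit at a place over `q`. -/
theorem val_natCast_eq_one_of_not_dvd {q N : ℕ} (hq : A.LiesOverPrime q) (hqp : q.Prime)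
    (hN : ¬ q ∣ N) : A.valuation (N : AlgebraicClosure ℚ) = 1 := by
  have hq' : A.valuation (q : AlgebraicClosure ℚ) < 1 := (A.mem_nonunits_iff).mp hq
  have hcop : IsCoprime (q : ℤ) (N : ℤ) := by
    rw [Int.isCoprime_iff_gcd_eq_one, Int.gcd_natCast_natCast]
    exact (Nat.Prime.coprime_iff_not_dvd hqp).2 hN
  obtain ⟨u, w, huw⟩ := hcop
  have h1 : (u : AlgebraicClosure ℚ) * (q : AlgebraicClosure ℚ)
      + (w : AlgebraicClosure ℚ) * (N : AlgebraicClosure ℚ) = 1 := by
    exact_mod_cast congrArg (Int.cast : ℤ → AlgebraicClosure ℚ) huw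
  have hsmall : A.valuation ((u : AlgebraicClosure ℚ) * (q : AlgebraicClosure ℚ)) < 1 := by
    rw [map_mul]
    exact (mul_le_of_le_one_left' (val_intCast_le_one u)).trans_lt hq'
  have hwn : A.valuation ((w : AlgebraicClosure ℚ) * (N : AlgebraicClosure ℚ)) = 1 := by
    have : (w : AlgebraicClosure ℚ) * (N : AlgebraicClosure ℚ)
        = 1 + -((u : AlgebraicClosure ℚ) * (q : AlgebraicClosure ℚ)) := by linear_combination h1
    rw [this, (A.valuation).map_add_eq_of_lt_left
      (by rw [Valuation.map_neg, map_one]; exact hsmall), map_one]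
  rw [map_mul] at hwn
  have hp1 : A.valuation (N : AlgebraicClosure ℚ) ≤ 1 := by
    have h := val_intCast_le_one (A := A) (N : ℤ)
    rwa [Int.cast_natCast] at h
  refine le_antisymm hp1 ?_
  calc (1 : A.ValueGroup)
      = A.valuation (w : AlgebraicClosure ℚ) * A.valuation (N : AlgebraicClosure ℚ) := hwn.symm
    _ ≤ 1 * A.valuation (N : AlgebraicClosure ℚ) := mul_le_mul_left (val_intCast_le_one w) _
    _ = A.valuation (N : AlgebraicClosure ℚ) := one_mul _

end val

section cyc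

variable (N : ℕ) [NeZero N]

/-- `ℚ̄` has exactly `N` roots of unity of order dividing `N`. -/
theorem card_rootsOfUnity_Qbar :
    Nat.card (rootsOfUnity N (AlgebraicClosure ℚ)) = N :=
  IsAlgClosed.card_rootsOfUnity_eq (AlgebraicClosure ℚ) N

/-- The mod `N` cyclotomic character of `G_ℚ`. -/
noncomputable def cycN :
    (AlgebraicClosure ℚ ≃ₐ[ℚ] AlgebraicClosure ℚ) →* (ZMod N)ˣ :=
  MonoidHom.mk'
    (fun σ => modularCyclotomicCharacter (AlgebraicClosure ℚ) (card_rootsOfUnity_Qbar N)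
      (σ : AlgebraicClosure ℚ ≃+* AlgebraicClosure ℚ))
    (fun a b => by rw [← map_mul]; congr 1)

/-- Defining property of `cycN`, on roots of `X ^ N - 1`. -/
theorem cycN_spec (σ : AlgebraicClosure ℚ ≃ₐ[ℚ] AlgebraicClosure ℚ)
    {t : AlgebraicClosure ℚ} (ht : t ^ N = 1) :
    σ t = t ^ ((cycN N σ : (ZMod N)ˣ) : ZMod N).val := by
  have hu : IsUnit t := IsUnit.of_pow_eq_one ht (NeZero.ne N)
  obtain ⟨u, rfl⟩ := hu
  have hmem : u ∈ rootsOfUnity N (AlgebraicClosure ℚ) := by
    rw [mem_rootsOfUnity]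
    apply Units.ext
    rw [Units.val_pow_eq_pow_val, ht, Units.val_one]
  exact modularCyclotomicCharacter.spec (AlgebraicClosure ℚ) (card_rootsOfUnity_Qbar N)
    (σ : AlgebraicClosure ℚ ≃+* AlgebraicClosure ℚ) hmem

/-- If `σ` acts on the `N`-th roots of unity by `t ↦ t ^ c.val`, then `cycN N σ = c`. -/
theorem cycN_unique (σ : AlgebraicClosure ℚ ≃ₐ[ℚ] AlgebraicClosure ℚ) (c : ZMod N)
    (hσ : ∀ t : AlgebraicClosure ℚ, t ^ N = 1 → σ t = t ^ c.val) :
    ((cycN N σ : (ZMod N)ˣ) : ZMod N) = c := by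
  rcases Nat.lt_or_ge 1 N with h1 | h1
  · have : Fact (1 < N) := ⟨h1⟩
    have h := modularCyclotomicCharacter.unique (AlgebraicClosure ℚ) (card_rootsOfUnity_Qbar N)
      (σ : AlgebraicClosure ℚ ≃+* AlgebraicClosure ℚ) (c := c)
      (fun t ht => by
        have htp : (t : AlgebraicClosure ℚ) ^ N = 1 := by
          have := (mem_rootsOfUnity N t).1 ht
          rw [← Units.val_pow_eq_pow_val, this, Units.val_one]
        exact hσ _ htp)
    exact h.symm
  · have hN1 : N = 1 := le_antisymm h1 (Nat.one_le_iff_ne_zero.2 (NeZero.ne N))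
    subst hN1
    exact Subsingleton.elim _ _

/-- If `σ` fixes every `N`-th root of unity of `ℚ̄`, then `cycN N σ = 1`. -/
theorem cycN_eq_one_of_fixes_roots (σ : AlgebraicClosure ℚ ≃ₐ[ℚ] AlgebraicClosure ℚ)
    (hσ : ∀ t : AlgebraicClosure ℚ, t ^ N = 1 → σ t = t) : cycN N σ = 1 := by
  apply Units.ext
  rw [Units.val_one]
  rcases Nat.lt_or_ge 1 N with h1 | h1
  · have : Fact (1 < N) := ⟨h1⟩
    apply cycN_unique
    intro t ht
    rw [ZMod.val_one, pow_one]
    exact hσ t ht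
  · have hN1 : N = 1 := le_antisymm h1 (Nat.one_le_iff_ne_zero.2 (NeZero.ne N))
    subst hN1
    exact Subsingleton.elim _ _

/-- A Frobenius element at a place over `ℓ ∤ N` acts on `N`-th roots of unity by `t ↦ t ^ ℓ`. -/
theorem frob_rootN_eq_pow {ℓ : ℕ} (hℓ : ℓ.Prime) (hℓN : ¬ ℓ ∣ N)
    (A : ValuationSubring (AlgebraicClosure ℚ)) (hA : A.LiesOverPrime ℓ)
    (τ : AlgebraicClosure ℚ ≃ₐ[ℚ] AlgebraicClosure ℚ) (hτ : A.IsFrobeniusAt τ ℓ)
    {t : AlgebraicClosure ℚ} (htp : t ^ N = 1) : τ t = t ^ ℓ := by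
  by_contra hne
  have hpv := val_natCast_eq_one_of_not_dvd (A := A) hA hℓ hℓN
  have hσt : (τ t) ^ N = 1 := by rw [← map_pow, htp, map_one]
  have htl : (t ^ ℓ) ^ N = 1 := by rw [← pow_mul, mul_comm, pow_mul, htp, one_pow]
  have h1 := val_sub_roots_eq_one (A := A) (NeZero.ne N) hpv hσt htl hne
  have hvt : A.valuation t ≤ 1 := by
    have h : (A.valuation t) ^ N = 1 := by rw [← map_pow, htp, map_one]
    exact ((pow_eq_one_iff.1 h).resolve_right (NeZero.ne N)).le
  have h2 := frob_val_sub_lt_one A hτ t hvt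
  rw [h1] at h2
  exact lt_irrefl _ h2

/-- **Cyclotomic character at Frobenius.** For `ℓ ∤ N` and a Frobenius element `τ` at a place
over `ℓ`, the mod `N` cyclotomic character of `τ` is `ℓ`. -/
theorem cycN_frobenius {ℓ : ℕ} (hℓ : ℓ.Prime) (hℓN : ¬ ℓ ∣ N)
    (A : ValuationSubring (AlgebraicClosure ℚ)) (hA : A.LiesOverPrime ℓ)
    (τ : AlgebraicClosure ℚ ≃ₐ[ℚ] AlgebraicClosure ℚ) (hτ : A.IsFrobeniusAt τ ℓ) :
    ((cycN N τ : (ZMod N)ˣ) : ZMod N) = (ℓ : ZMod N) := by
  apply cycN_unique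
  intro t htp
  rw [frob_rootN_eq_pow N hℓ hℓN A hA τ hτ htp, ZMod.val_natCast]
  conv_lhs => rw [← Nat.div_add_mod ℓ N, pow_add, pow_mul, htp, one_pow, one_mul]

/-- The mod `N` cyclotomic character is unramified at every prime `q ∤ N`. -/
theorem cycN_eq_one_of_mem_inertia {q : ℕ} (hq : q.Prime) (hqN : ¬ q ∣ N)
    (A : ValuationSubring (AlgebraicClosure ℚ)) (hA : A.LiesOverPrime q)
    (σ : AlgebraicClosure ℚ ≃ₐ[ℚ] AlgebraicClosure ℚ) (hσ : σ ∈ A.inertiaSubgroupIn ℚ) :
    cycN N σ = 1 := by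
  apply cycN_eq_one_of_fixes_roots
  intro t htp
  by_contra hne
  have hpv := val_natCast_eq_one_of_not_dvd (A := A) hA hq hqN
  have hσt : (σ t) ^ N = 1 := by rw [← map_pow, htp, map_one]
  have h1 := val_sub_roots_eq_one (A := A) (NeZero.ne N) hpv hσt htp hne
  have hvt : A.valuation t ≤ 1 := by
    have h : (A.valuation t) ^ N = 1 := by rw [← map_pow, htp, map_one]
    exact ((pow_eq_one_iff.1 h).resolve_right (NeZero.ne N)).le
  have h2 := inertia_val_sub_lt_one A hσ t hvt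
  rw [h1] at h2
  exact lt_irrefl _ h2

end cyc

end Fermat.Agent.S48.H8
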