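import Fermat.Agent.S48.H8.CycloN

/-!
# S48 / RES, layer A with determinant character (helper8) — part 2:
the Galois character of a Dirichlet character

For `ε : DirichletCharacter ℂ N` the map `σ ↦ ε (cycN N σ)` is a character of `G_ℚ` with values
in the algebraic integers `ℤ̄ = integralClosure ℤ ℂ`:

* `detZ ε : G_ℚ →* ℤ̄`;
* `detZ_frobenius` : a Frobenius element at a place over `p ∤ N` is sent to `ε p`;
* `detZ_eq_one_of_mem_inertia` : inertia at a place over `p ∤ N` is sent to `1`;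
* `detZ_eq_one_of_fixes_roots` : finite level (`ℚ(μ_N)`).
-/

set_option autoImplicit false

namespace Fermat.Agent.S48.H8

variable {N : ℕ} [NeZero N]

/-- The values of a Dirichlet character are algebraic integers. -/
theorem isIntegral_dirichlet (ε : DirichletCharacter ℂ N) (x : ZMod N) :
    IsIntegral ℤ (ε x) := by
  by_cases hx : IsUnit x
  · obtain ⟨u, rfl⟩ := hx
    have hpos : 0 < Fintype.card (ZMod N)ˣ := Fintype.card_pos
    refine IsIntegral.of_pow hpos ?_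
    rw [← map_pow, ← Units.val_pow_eq_pow_val, pow_card_eq_one, Units.val_one, map_one]
    exact isIntegral_one
  · rw [MulChar.map_nonunit ε hx]
    exact isIntegral_zero

/-- The Galois character `σ ↦ ε (cycN N σ)` with values in `ℤ̄`. -/
noncomputable def detZ (ε : DirichletCharacter ℂ N) :
    (AlgebraicClosure ℚ ≃ₐ[ℚ] AlgebraicClosure ℚ) →* integralClosure ℤ ℂ where
  toFun σ := ⟨ε ((cycN N σ : (ZMod N)ˣ) : ZMod N), isIntegral_dirichlet ε _⟩
  map_one' := by
    apply Subtype.ext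
    show ε ((cycN N 1 : (ZMod N)ˣ) : ZMod N) = 1
    rw [map_one, Units.val_one, map_one]
  map_mul' σ τ := by
    apply Subtype.ext
    show ε ((cycN N (σ * τ) : (ZMod N)ˣ) : ZMod N)
      = ε ((cycN N σ : (ZMod N)ˣ) : ZMod N) * ε ((cycN N τ : (ZMod N)ˣ) : ZMod N)
    rw [map_mul, Units.val_mul, map_mul]

theorem coe_detZ (ε : DirichletCharacter ℂ N)
    (σ : AlgebraicClosure ℚ ≃ₐ[ℚ] AlgebraicClosure ℚ) :
    ((detZ ε σ : integralClosure ℤ ℂ) : ℂ) = ε ((cycN N σ : (ZMod N)ˣ) : ZMod N) := rfl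

/-- A Frobenius element at a place over `p ∤ N` is sent to `ε p`. -/
theorem detZ_frobenius (ε : DirichletCharacter ℂ N) {p : ℕ} (hp : p.Prime) (hpN : ¬ p ∣ N)
    (A : ValuationSubring (AlgebraicClosure ℚ)) (hA : A.LiesOverPrime p)
    (τ : AlgebraicClosure ℚ ≃ₐ[ℚ] AlgebraicClosure ℚ) (hτ : A.IsFrobeniusAt τ p)
    (e : integralClosure ℤ ℂ) (he : (e : ℂ) = ε (p : ZMod N)) : detZ ε τ = e := by
  apply Subtype.ext
  rw [coe_detZ, cycN_frobenius N hp hpN A hA τ hτ, he]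

/-- Inertia at a place over `p ∤ N` is sent to `1`. -/
theorem detZ_eq_one_of_mem_inertia (ε : DirichletCharacter ℂ N) {p : ℕ} (hp : p.Prime)
    (hpN : ¬ p ∣ N) (A : ValuationSubring (AlgebraicClosure ℚ)) (hA : A.LiesOverPrime p)
    (σ : AlgebraicClosure ℚ ≃ₐ[ℚ] AlgebraicClosure ℚ) (hσ : σ ∈ A.inertiaSubgroupIn ℚ) :
    detZ ε σ = 1 := by
  apply Subtype.ext
  rw [coe_detZ, cycN_eq_one_of_mem_inertia N hp hpN A hA σ hσ, Units.val_one, map_one]
  rfl

/-- `detZ ε` is trivial on `Gal(ℚ̄/ℚ(μ_N))`. -/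
theorem detZ_eq_one_of_fixes_roots (ε : DirichletCharacter ℂ N)
    (σ : AlgebraicClosure ℚ ≃ₐ[ℚ] AlgebraicClosure ℚ)
    (hσ : ∀ t : AlgebraicClosure ℚ, t ^ N = 1 → σ t = t) : detZ ε σ = 1 := by
  apply Subtype.ext
  rw [coe_detZ, cycN_eq_one_of_fixes_roots N σ hσ, Units.val_one, map_one]
  rfl

end Fermat.Agent.S48.H8
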