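import Fermat.Agent.S48.H8.DetChar
import Fermat.Agent.S29.H872.Final
import Fermat.Agent.S29.Orb
import Fermat.Agent.Lib.Cheb.FrobeniusDivision
import Fermat.Agent.S48.Top.Spec

/-!
# S48 / RES, layer A with determinant character (helper8) — part 3: the assembly

`S29.H872` turns a nonzero Galois module on which all Frobenius elements satisfy
`σ² - a_ℓ σ + ℓ = 0` into a two-dimensional residual representation (constant term = mod `p`
cyclotomic character).  For Deligne–Serre the constant term is the NEBENTYPUS: the module cut out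
of the torsion of `J₁(Nℓ)` by a weight-one eigensystem satisfies `σ² - φ(a_p) σ + φ(ε(p)) = 0`.

* `exists_residualGaloisRep_of_module_det` : the generic statement, for an arbitrary character
  `δ : G_ℚ →* F` of finite level, unramified outside `S`, with prescribed values at Frobenius;
* `ModHypDet ε f ℓ ψ` / `FrobModuleDet ε f ℓ ψ` : hypothesis shapes (finite dimensional / smooth);
* `residual_of_modHypDet` : conclusion of `Top.ResidualStatement` for one `(N, ε, f, ℓ, k, φ)`;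
* `residualStatement_of_frobModule` : `Top.ResidualStatement` from the existence of the modules.

Everything is unconditional (Chebotarev input = `Lib.Cheb.frobeniusDivision`, on main).
-/

set_option autoImplicit false

namespace Fermat.Agent.S48.H8

open Polynomial CongruenceSubgroup
open Fermat.Agent.S29 (IsSmoothRep)
open Fermat.Agent.S48.Top (Zbar IsEigen)

/-- Weak qualitative Chebotarev (`S29.H872.WeakCheb`), unconditionally. -/
theorem weakCheb : Fermat.Agent.S29.H872.WeakCheb := by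
  intro s σ S
  have hfd : FiniteDimensional ℚ
      (IntermediateField.adjoin ℚ ((s : Set (AlgebraicClosure ℚ)))) :=
    IntermediateField.finiteDimensional_adjoin
      (fun x _ => (AlgebraicClosure.isAlgebraic ℚ).isIntegral.isIntegral x)
  obtain ⟨ℓ, A, τ, _, j, hℓ, hℓS, hA, hτ, _, _, hj⟩ :=
    Fermat.Agent.Lib.Cheb.frobeniusDivision _ hfd σ S
  exact ⟨ℓ, A, τ, j, hℓ, hℓS, hA, hτ,
    fun x hx => hj x (IntermediateField.subset_adjoin ℚ _ hx)⟩

/-- **Layer A with determinant character, generic form.**  `F` algebraically closed, `M` a nonzero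
finite dimensional `F[G_ℚ]`-module of finite level, unramified outside `S`; `δ : G_ℚ →* F` a
character of finite level, unramified outside `S`, with `δ(Frob_ℓ) = e ℓ`; every Frobenius element
at `ℓ ∉ S` satisfies `σ² = c ℓ • σ - e ℓ` on `M`.  Then there is a `ResidualGaloisRep F`, unramified
outside `S`, with `charpoly (ρ Frob_ℓ) = X² - c ℓ X + e ℓ` for all `ℓ ∉ S`. -/
theorem exists_residualGaloisRep_of_module_det
    {F : Type} [Field F] [IsAlgClosed F]
    {M : Type} [AddCommGroup M] [Module F M] [FiniteDimensional F M] [Nontrivial M]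
    (r : (AlgebraicClosure ℚ ≃ₐ[ℚ] AlgebraicClosure ℚ) →* Module.End F M)
    (hfin : GaloisFactorsThroughFiniteLevel r)
    (S : Finset ℕ) (c e : ℕ → F)
    (δ : (AlgebraicClosure ℚ ≃ₐ[ℚ] AlgebraicClosure ℚ) →* F)
    (hδlev : ∃ s₁ : Finset (AlgebraicClosure ℚ),
      ∀ σ : AlgebraicClosure ℚ ≃ₐ[ℚ] AlgebraicClosure ℚ, (∀ t ∈ s₁, σ t = t) → δ σ = 1)
    (hδunr : ∀ ℓ : ℕ, ℓ.Prime → ℓ ∉ S → ∀ A : ValuationSubring (AlgebraicClosure ℚ),
      A.LiesOverPrime ℓ → ∀ σ ∈ A.inertiaSubgroupIn ℚ, δ σ = 1)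
    (hδfrob : ∀ ℓ : ℕ, ℓ.Prime → ℓ ∉ S → ∀ A : ValuationSubring (AlgebraicClosure ℚ),
      A.LiesOverPrime ℓ → ∀ σ : AlgebraicClosure ℚ ≃ₐ[ℚ] AlgebraicClosure ℚ,
        A.IsFrobeniusAt σ ℓ → δ σ = e ℓ)
    (hunr : ∀ ℓ : ℕ, ℓ.Prime → ℓ ∉ S → ∀ A : ValuationSubring (AlgebraicClosure ℚ),
      A.LiesOverPrime ℓ → ∀ σ ∈ A.inertiaSubgroupIn ℚ, r σ = 1)
    (hES : ∀ ℓ : ℕ, ℓ.Prime → ℓ ∉ S → ∀ A : ValuationSubring (AlgebraicClosure ℚ),
      A.LiesOverPrime ℓ → ∀ σ : AlgebraicClosure ℚ ≃ₐ[ℚ] AlgebraicClosure ℚ,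
        A.IsFrobeniusAt σ ℓ → r σ * r σ = c ℓ • r σ - e ℓ • 1) :
    ∃ ρ : ResidualGaloisRep F,
      (∀ ℓ : ℕ, ℓ.Prime → ℓ ∉ S → ρ.IsUnramifiedAt ℓ) ∧
      ∀ ℓ : ℕ, ℓ.Prime → ℓ ∉ S → ∀ A : ValuationSubring (AlgebraicClosure ℚ),
        A.LiesOverPrime ℓ → ∀ σ : AlgebraicClosure ℚ ≃ₐ[ℚ] AlgebraicClosure ℚ,
          A.IsFrobeniusAt σ ℓ →
            LinearMap.charpoly (ρ.ρ σ) = X ^ 2 - C (c ℓ) * X + C (e ℓ) := by
  classical
  obtain ⟨L₀, hL₀fd, hL₀⟩ := hfin
  have := hL₀fd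
  obtain ⟨s₀, hs₀⟩ := Fermat.Agent.S29.H872.exists_finset_level L₀
  obtain ⟨s₁, hs₁⟩ := hδlev
  -- the quadratic relation for every element of the Galois group
  have hall : ∀ σ : AlgebraicClosure ℚ ≃ₐ[ℚ] AlgebraicClosure ℚ,
      ∃ a' : F, r σ * r σ = a' • r σ - δ σ • 1 := by
    intro σ
    obtain ⟨q, A, τ, j, hq, hqS, hA, hτ, hagree⟩ := weakCheb (s₀ ∪ s₁) σ S
    have h0 : ∀ x ∈ L₀, (τ ^ j) x = σ x :=
      hs₀ _ _ (fun x hx => hagree x (Finset.mem_union_left _ hx))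
    have hfix : ∀ x : AlgebraicClosure ℚ, (τ ^ j) x = σ x → (σ⁻¹ * τ ^ j) x = x := by
      intro x hx
      rw [AlgEquiv.mul_apply, hx]
      exact σ.symm_apply_apply x
    have hr : r σ = r τ ^ j := by
      have h1 : r (σ⁻¹ * τ ^ j) = 1 := hL₀ _ (fun x hx => hfix x (h0 x hx))
      have h2 : r σ * r (σ⁻¹ * τ ^ j) = r τ ^ j := by
        rw [← map_mul, mul_inv_cancel_left, map_pow]
      rw [h1, mul_one] at h2
      exact h2
    have hd : δ σ = δ τ ^ j := by
      have h1 : δ (σ⁻¹ * τ ^ j) = 1 :=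
        hs₁ _ (fun t ht => hfix t (hagree t (Finset.mem_union_right _ ht)))
      have h2 : δ σ * δ (σ⁻¹ * τ ^ j) = δ τ ^ j := by
        rw [← map_mul, mul_inv_cancel_left, map_pow]
      rw [h1, mul_one] at h2
      exact h2
    have hτrel := hES q hq hqS A hA τ hτ
    have hdτ : δ τ = e q := hδfrob q hq hqS A hA τ hτ
    obtain ⟨a', ha'⟩ := Fermat.Agent.S29.H872.exists_pow_rel hτrel j
    exact ⟨a', by rw [hr, hd, hdτ]; exact ha'⟩
  choose a ha using hall
  obtain ⟨V, iA, iM, iFin, ρ, hfr, htriv, hchar⟩ :=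
    Fermat.Agent.S29.H872.exists_two_dim r δ a ha
  -- the level of `ρ`
  have hint : ∀ x ∈ (s₁ : Set (AlgebraicClosure ℚ)), IsIntegral ℚ x := fun x _ =>
    (AlgebraicClosure.isAlgebraic ℚ).isIntegral.isIntegral x
  have : FiniteDimensional ℚ (IntermediateField.adjoin ℚ (s₁ : Set (AlgebraicClosure ℚ))) :=
    IntermediateField.finiteDimensional_adjoin hint
  have hlevel : GaloisFactorsThroughFiniteLevel ρ := by
    refine ⟨L₀ ⊔ IntermediateField.adjoin ℚ (s₁ : Set (AlgebraicClosure ℚ)), inferInstance,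
      fun σ hσ => htriv σ (hL₀ σ fun x hx => hσ x ?_) (hs₁ σ fun t ht => hσ t ?_)⟩
    · exact (le_sup_left : L₀ ≤ _) hx
    · exact (le_sup_right : IntermediateField.adjoin ℚ (s₁ : Set (AlgebraicClosure ℚ)) ≤ _)
        (IntermediateField.subset_adjoin ℚ _ ht)
  refine ⟨@ResidualGaloisRep.mk F _ V iA iM hfr ρ hlevel, ?_, ?_⟩
  · intro ℓ hℓ hℓS A hA σ hσ
    exact htriv σ (hunr ℓ hℓ hℓS A hA σ hσ) (hδunr ℓ hℓ hℓS A hA σ hσ)
  · intro ℓ hℓ hℓS A hA σ hσ
    have hdσ : δ σ = e ℓ := hδfrob ℓ hℓ hℓS A hA σ hσ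
    have h := hchar σ (c ℓ) (by rw [hdσ]; exact hES ℓ hℓ hℓS A hA σ hσ)
    rw [hdσ] at h
    exact h

/-! ### The hypothesis shapes for `Top.ResidualStatement` -/

/-- **MOD with nebentypus** (finite dimensional form): a nonzero finite dimensional
`F[G_ℚ]`-module of finite level, unramified outside `N ℓ`, on which every Frobenius element at
`p ∤ N ℓ` satisfies `σ² - ψ(a_p) σ + ψ(ε(p)) = 0`. -/
def ModHypDet {N : ℕ} [NeZero N] (ε : DirichletCharacter ℂ N) (f : CuspForm (Gamma1 N) 1)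
    (ℓ : ℕ) {F : Type} [Field F] (ψ : Zbar →+* F) : Prop :=
  ∃ (M : Type) (_ : AddCommGroup M) (_ : Module F M) (_ : FiniteDimensional F M)
    (_ : Nontrivial M) (r : (AlgebraicClosure ℚ ≃ₐ[ℚ] AlgebraicClosure ℚ) →* Module.End F M),
    GaloisFactorsThroughFiniteLevel r ∧
    (∀ p : ℕ, p.Prime → ¬ p ∣ N * ℓ → ∀ A : ValuationSubring (AlgebraicClosure ℚ),
      A.LiesOverPrime p → ∀ σ ∈ A.inertiaSubgroupIn ℚ, r σ = 1) ∧
    (∀ p : ℕ, p.Prime → ¬ p ∣ N * ℓ →
      ∃ a e : Zbar, (a : ℂ) = ModularFormClass.qCoeff f p ∧ (e : ℂ) = ε (p : ZMod N) ∧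
        ∀ A : ValuationSubring (AlgebraicClosure ℚ), A.LiesOverPrime p →
          ∀ σ : AlgebraicClosure ℚ ≃ₐ[ℚ] AlgebraicClosure ℚ, A.IsFrobeniusAt σ p →
            r σ * r σ = ψ a • r σ - ψ e • 1)

/-- **MOD with nebentypus** (smooth form, the natural output of a torsion module): a nonzero
smooth `F[G_ℚ]`-module, unramified outside `N ℓ`, on which every Frobenius element at `p ∤ N ℓ`
satisfies `σ² - ψ(a_p) σ + ψ(ε(p)) = 0`. -/
def FrobModuleDet {N : ℕ} [NeZero N] (ε : DirichletCharacter ℂ N) (f : CuspForm (Gamma1 N) 1)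
    (ℓ : ℕ) {F : Type} [Field F] (ψ : Zbar →+* F) : Prop :=
  ∃ (M : Type) (_ : AddCommGroup M) (_ : Module F M)
    (r : (AlgebraicClosure ℚ ≃ₐ[ℚ] AlgebraicClosure ℚ) →* Module.End F M),
    Nontrivial M ∧ IsSmoothRep r ∧
    (∀ p : ℕ, p.Prime → ¬ p ∣ N * ℓ → ∀ A : ValuationSubring (AlgebraicClosure ℚ),
      A.LiesOverPrime p → ∀ σ ∈ A.inertiaSubgroupIn ℚ, r σ = 1) ∧
    (∀ p : ℕ, p.Prime → ¬ p ∣ N * ℓ →
      ∃ a e : Zbar, (a : ℂ) = ModularFormClass.qCoeff f p ∧ (e : ℂ) = ε (p : ZMod N) ∧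
        ∀ A : ValuationSubring (AlgebraicClosure ℚ), A.LiesOverPrime p →
          ∀ σ : AlgebraicClosure ℚ ≃ₐ[ℚ] AlgebraicClosure ℚ, A.IsFrobeniusAt σ p →
            r σ * r σ = ψ a • r σ - ψ e • 1)

/-- Smooth ⟹ finite dimensional (restriction to a finite dimensional stable subspace). -/
theorem modHypDet_of_frobModuleDet {N : ℕ} [NeZero N] {ε : DirichletCharacter ℂ N}
    {f : CuspForm (Gamma1 N) 1} {ℓ : ℕ} {F : Type} [Field F] {ψ : Zbar →+* F}
    (h : FrobModuleDet ε f ℓ ψ) : ModHypDet ε f ℓ ψ := by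
  obtain ⟨M, _, _, ρ, hnt, hsm, hur, hfq⟩ := h
  obtain ⟨W, hW0, hWfin, hWst, L, hL, hLfix⟩ :=
    Fermat.Agent.S29.exists_finite_stable_submodule ρ hsm
  let r : (AlgebraicClosure ℚ ≃ₐ[ℚ] AlgebraicClosure ℚ) →* Module.End F W :=
    { toFun := fun σ => (ρ σ).restrict (hWst σ)
      map_one' := by
        ext x
        simp
      map_mul' := fun σ τ => by
        ext x
        simp [LinearMap.restrict_apply] }
  have hr : ∀ (σ : AlgebraicClosure ℚ ≃ₐ[ℚ] AlgebraicClosure ℚ) (x : W),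
      ((r σ x : W) : M) = ρ σ (x : M) := fun _ _ => rfl
  have : Nontrivial W := (Submodule.nontrivial_iff_ne_bot).mpr hW0
  refine ⟨W, inferInstance, inferInstance, hWfin, inferInstance, r, ⟨L, hL, ?_⟩, ?_, ?_⟩
  · intro σ hσ
    ext x
    rw [hr, hLfix σ hσ x x.2]
    rfl
  · intro p hp hS A hA σ hσ
    ext x
    rw [hr, hur p hp hS A hA σ hσ]
    rfl
  · intro p hp hS
    obtain ⟨a, e, ha, he, hrel⟩ := hfq p hp hS
    refine ⟨a, e, ha, he, fun A hA σ hσ => ?_⟩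
    have h0 := hrel A hA σ hσ
    ext x
    have h1 := congrArg (fun g : Module.End F M => g (x : M)) h0
    simp only [LinearMap.sub_apply, Module.End.mul_apply, LinearMap.smul_apply,
      Module.End.one_apply] at h1
    simp only [LinearMap.sub_apply, Module.End.mul_apply, LinearMap.smul_apply,
      Module.End.one_apply, Submodule.coe_sub, Submodule.coe_smul, hr]
    exact h1

/-- **RES for one prime, general form**: `F` algebraically closed, `ψ : ℤ̄ → F`, `ι : F → k` with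
`ι ∘ ψ = φ`; from `ModHypDet ε f ℓ ψ` to the conclusion of `Top.ResidualStatement`. -/
theorem residual_of_modHypDet_field {N : ℕ} [NeZero N] (ε : DirichletCharacter ℂ N)
    (f : CuspForm (Gamma1 N) 1) {ℓ : ℕ} (hℓ : ℓ.Prime) {k : Type} [Field k]
    (φ : Zbar →+* k)
    {F : Type} [Field F] [IsAlgClosed F] (ψ : Zbar →+* F) (ι : F →+* k)
    (hι : ∀ a, ι (ψ a) = φ a) (hMod : ModHypDet ε f ℓ ψ) :
    ∃ ρ : ResidualGaloisRep k,
      ∀ p : ℕ, p.Prime → ¬ p ∣ N * ℓ → ρ.IsUnramifiedAt p ∧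
        ∀ A : ValuationSubring (AlgebraicClosure ℚ), A.LiesOverPrime p →
          ∀ σ : AlgebraicClosure ℚ ≃ₐ[ℚ] AlgebraicClosure ℚ, A.IsFrobeniusAt σ p →
            ∃ a e : Zbar, (a : ℂ) = ModularFormClass.qCoeff f p ∧
              (e : ℂ) = ε (p : ZMod N) ∧
              LinearMap.charpoly (ρ.ρ σ) =
                Polynomial.X ^ 2 - Polynomial.C (φ a) * Polynomial.X + Polynomial.C (φ e) := by
  classical
  obtain ⟨M, iA, iM, iFD, iNT, r, hfin, hunr, hES⟩ := hMod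
  have hNℓ : N * ℓ ≠ 0 := Nat.mul_ne_zero (NeZero.ne N) hℓ.ne_zero
  let S : Finset ℕ := (N * ℓ).primeFactors
  have hS : ∀ p : ℕ, p.Prime → (p ∉ S ↔ ¬ p ∣ N * ℓ) := fun p hp => by
    simp only [S, Nat.mem_primeFactors, not_and, not_not]
    constructor
    · intro h hd
      exact hNℓ (h hp hd)
    · intro h _ hd
      exact absurd hd h
  have hSN : ∀ p : ℕ, p.Prime → p ∉ S → ¬ p ∣ N := fun p hp hpS hd =>
    (hS p hp).1 hpS (Dvd.dvd.mul_right hd ℓ)
  let c : ℕ → F := fun p =>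
    if h : ∃ a : Zbar, (a : ℂ) = ModularFormClass.qCoeff f p then ψ h.choose else 0
  have hc : ∀ (p : ℕ) (a : Zbar), (a : ℂ) = ModularFormClass.qCoeff f p → c p = ψ a := by
    intro p a ha
    have h : ∃ a : Zbar, (a : ℂ) = ModularFormClass.qCoeff f p := ⟨a, ha⟩
    simp only [c, dif_pos h]
    congr 1
    exact Subtype.ext (h.choose_spec.trans ha.symm)
  let d : ℕ → F := fun p => ψ ⟨ε (p : ZMod N), isIntegral_dirichlet ε _⟩
  have hd : ∀ (p : ℕ) (e : Zbar), (e : ℂ) = ε (p : ZMod N) → d p = ψ e := by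
    intro p e he
    simp only [d]
    congr 1
    exact Subtype.ext he.symm
  let δ : (AlgebraicClosure ℚ ≃ₐ[ℚ] AlgebraicClosure ℚ) →* F :=
    (ψ : Zbar →* F).comp (detZ ε)
  have hδ : ∀ σ, δ σ = ψ (detZ ε σ) := fun _ => rfl
  obtain ⟨ρ₀, hρunr, hρchar⟩ := exists_residualGaloisRep_of_module_det r hfin S c d δ
    ⟨Polynomial.nthRootsFinset N (1 : AlgebraicClosure ℚ), fun σ hσ => by
      rw [hδ, detZ_eq_one_of_fixes_roots ε σ (fun t ht => hσ t
        ((Polynomial.mem_nthRootsFinset (Nat.pos_of_ne_zero (NeZero.ne N)) 1).2 ht)), map_one]⟩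
    (fun p hp hpS A hA σ hσ => by
      rw [hδ, detZ_eq_one_of_mem_inertia ε hp (hSN p hp hpS) A hA σ hσ, map_one])
    (fun p hp hpS A hA σ hσ => by
      rw [hδ, detZ_frobenius ε hp (hSN p hp hpS) A hA σ hσ
        ⟨ε (p : ZMod N), isIntegral_dirichlet ε _⟩ rfl])
    (fun p hp hpS => hunr p hp ((hS p hp).1 hpS))
    (fun p hp hpS A hA σ hσ => by
      obtain ⟨a, e, ha, he, hrel⟩ := hES p hp ((hS p hp).1 hpS)
      rw [hc p a ha, hd p e he]
      exact hrel A hA σ hσ)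
  refine ⟨ρ₀.baseChangeAlong ι, fun p hp hpNℓ => ⟨?_, ?_⟩⟩
  · intro A hA σ hσ
    have h := hρunr p hp ((hS p hp).2 hpNℓ) A hA σ hσ
    let _ : Algebra F k := ι.toAlgebra
    change (ρ₀.ρ σ).baseChange k = 1
    rw [h, LinearMap.baseChange_one]
  · intro A hA σ hσ
    obtain ⟨a, e, ha, he, -⟩ := hES p hp hpNℓ
    refine ⟨a, e, ha, he, ?_⟩
    have h := hρchar p hp ((hS p hp).2 hpNℓ) A hA σ hσ
    rw [hc p a ha, hd p e he] at h
    let _ : Algebra F k := ι.toAlgebra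
    change LinearMap.charpoly ((ρ₀.ρ σ).baseChange k) = _
    rw [LinearMap.charpoly_baseChange, h]
    simp only [Polynomial.map_add, Polynomial.map_sub, Polynomial.map_mul, Polynomial.map_pow,
      Polynomial.map_X, Polynomial.map_C]
    rw [show (algebraMap F k) (ψ a) = φ a from hι a, show (algebraMap F k) (ψ e) = φ e from hι e]

/-- **RES for one prime**: if `ModHypDet ε f ℓ ψ` holds for every algebraically closed field `F`
of characteristic `ℓ` and every `ψ : ℤ̄ → F`, then the conclusion of `Top.ResidualStatement`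
holds for every field `k` of characteristic `ℓ` and every `φ : ℤ̄ → k`. -/
theorem residual_of_modHypDet {N : ℕ} [NeZero N] (ε : DirichletCharacter ℂ N)
    (f : CuspForm (Gamma1 N) 1) {ℓ : ℕ} (hℓ : ℓ.Prime) {k : Type} [Field k] [CharP k ℓ]
    (φ : Zbar →+* k)
    (hMod : ∀ (F : Type) [Field F] [IsAlgClosed F] [CharP F ℓ] (ψ : Zbar →+* F),
      ModHypDet ε f ℓ ψ) :
    ∃ ρ : ResidualGaloisRep k,
      ∀ p : ℕ, p.Prime → ¬ p ∣ N * ℓ → ρ.IsUnramifiedAt p ∧
        ∀ A : ValuationSubring (AlgebraicClosure ℚ), A.LiesOverPrime p →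
          ∀ σ : AlgebraicClosure ℚ ≃ₐ[ℚ] AlgebraicClosure ℚ, A.IsFrobeniusAt σ p →
            ∃ a e : Zbar, (a : ℂ) = ModularFormClass.qCoeff f p ∧
              (e : ℂ) = ε (p : ZMod N) ∧
              LinearMap.charpoly (ρ.ρ σ) =
                Polynomial.X ^ 2 - Polynomial.C (φ a) * Polynomial.X + Polynomial.C (φ e) := by
  have := Fermat.Agent.S29.H872.isAlgClosed_imageField hℓ φ
  exact residual_of_modHypDet_field ε f hℓ φ (Fermat.Agent.S29.H872.toImageField hℓ φ)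
    (Fermat.Agent.S29.H872.imageField hℓ φ).subtype
    (fun a => Fermat.Agent.S29.H872.coe_toImageField hℓ φ a) (hMod _ _)

/-- The module-level statement that remains for RES (= TOWER A1 + P2): for every system
`(N, ε, f)` as in S48 and every large prime `ℓ`, over every algebraically closed field `F` of
characteristic `ℓ` and every `ψ : ℤ̄ → F` there is a nonzero smooth Galois module, unramified
outside `N ℓ`, on which the Frobenius elements at `p ∤ N ℓ` satisfy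
`σ² - ψ(a_p) σ + ψ(ε(p)) = 0`. -/
def FrobModuleStatement : Prop :=
  ∀ (N : ℕ) [NeZero N] (ε : DirichletCharacter ℂ N) (f : CuspForm (Gamma1 N) 1),
    IsEigen N ε f → ∃ B : ℕ, ∀ ℓ : ℕ, ℓ.Prime → B < ℓ →
      ∀ (F : Type) [Field F] [IsAlgClosed F] [CharP F ℓ] (ψ : Zbar →+* F),
        FrobModuleDet ε f ℓ ψ

/-- **Layer A for RES**: `Top.ResidualStatement` follows from the existence of the Frobenius
modules. -/
theorem residualStatement_of_frobModule (h : FrobModuleStatement) :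
    Fermat.Agent.S48.Top.ResidualStatement := by
  intro N _ ε f hf
  obtain ⟨B, hB⟩ := h N ε f hf
  refine ⟨B, fun ℓ hℓ hBℓ k _ _ φ => ?_⟩
  exact residual_of_modHypDet ε f hℓ φ
    (fun F _ _ _ ψ => modHypDet_of_frobModuleDet (hB ℓ hℓ hBℓ F ψ))

end Fermat.Agent.S48.H8
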